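import Mathlib

/-!
# S17 / G-DIV (helper20): the algebraic closure of `K₀(S)` in `L`, as a subfield (for TRANS)

Mathlib-only.
-/

set_option autoImplicit false

noncomputable section

open Cardinal

namespace Fermat.Agent.S17.H20

section AlgCl

variable {L : Type*} [Field L]

/-- The algebraic closure in `L` of the subfield generated by `K₀` and `S`. -/
def algClosureAdjoin (K₀ : Subfield L) (S : Set L) : Subfield L :=
  (algebraicClosure (IntermediateField.adjoin K₀ S) L).toSubfield

theorem mem_algClosureAdjoin {K₀ : Subfield L} {S : Set L} {x : L} :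
    x ∈ algClosureAdjoin K₀ S ↔ IsAlgebraic (IntermediateField.adjoin K₀ S) x :=
  mem_algebraicClosure_iff

theorem le_algClosureAdjoin (K₀ : Subfield L) (S : Set L) : K₀ ≤ algClosureAdjoin K₀ S := by
  intro a ha
  rw [mem_algClosureAdjoin]
  exact isAlgebraic_algebraMap
    (⟨a, (IntermediateField.adjoin K₀ S).algebraMap_mem ⟨a, ha⟩⟩ : IntermediateField.adjoin K₀ S)

theorem subset_algClosureAdjoin (K₀ : Subfield L) (S : Set L) :
    S ⊆ (algClosureAdjoin K₀ S : Set L) := by
  intro a ha
  rw [SetLike.mem_coe, mem_algClosureAdjoin]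
  exact isAlgebraic_algebraMap
    (⟨a, IntermediateField.subset_adjoin K₀ S ha⟩ : IntermediateField.adjoin K₀ S)

theorem algClosedIn_algClosureAdjoin (K₀ : Subfield L) (S : Set L) (x : L)
    (hx : IsAlgebraic (algClosureAdjoin K₀ S) x) : x ∈ algClosureAdjoin K₀ S := by
  rw [mem_algClosureAdjoin]
  have hx' : IsAlgebraic (algebraicClosure (IntermediateField.adjoin K₀ S) L) x := hx
  exact hx'.restrictScalars (IntermediateField.adjoin K₀ S)

theorem countable_algClosureAdjoin (K₀ : Subfield L) (S : Set L)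
    (hK₀ : (K₀ : Set L).Countable) (hS : S.Countable) :
    ((algClosureAdjoin K₀ S : Subfield L) : Set L).Countable := by
  rw [← Set.countable_coe_iff, ← Cardinal.mk_le_aleph0_iff]
  have h1 : #(IntermediateField.adjoin K₀ S) ≤ ℵ₀ := by
    refine (IntermediateField.cardinalMk_adjoin_le K₀ S).trans ?_
    have a1 : #K₀ ≤ ℵ₀ := Cardinal.mk_le_aleph0_iff.mpr hK₀.to_subtype
    have a2 : #S ≤ ℵ₀ := Cardinal.mk_le_aleph0_iff.mpr hS.to_subtype
    exact sup_le (sup_le a1 a2) le_rfl
  have _i : Module.IsTorsionFree (IntermediateField.adjoin K₀ S) L :=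
    Module.isTorsionFree_iff_algebraMap_injective.mpr
      (algebraMap (IntermediateField.adjoin K₀ S) L).injective
  have h2 : #{x : L // IsAlgebraic (IntermediateField.adjoin K₀ S) x}
      ≤ max #(IntermediateField.adjoin K₀ S) ℵ₀ :=
    Algebraic.cardinalMk_le_max (IntermediateField.adjoin K₀ S) L
  have h3 : #(algClosureAdjoin K₀ S) ≤ #{x : L // IsAlgebraic (IntermediateField.adjoin K₀ S) x} :=
    Cardinal.mk_le_of_injective
      (f := fun y : algClosureAdjoin K₀ S =>
        (⟨(y : L), mem_algClosureAdjoin.mp y.2⟩ :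
          {x : L // IsAlgebraic (IntermediateField.adjoin K₀ S) x}))
      (fun a b h => Subtype.ext (Subtype.mk.inj h))
  exact h3.trans (h2.trans (max_le h1 le_rfl))

theorem notMem_algClosureAdjoin {ι : Type*} (K₀ : Subfield L) (x : ι → L)
    (hx : AlgebraicIndependent K₀ x) (s : Set ι) (i : ι) (hi : i ∉ s) :
    x i ∉ algClosureAdjoin K₀ (x '' s) := by
  rw [mem_algClosureAdjoin]
  exact IntermediateField.transcendental_adjoin_iff.mpr (hx.transcendental_adjoin hi)

end AlgCl

end Fermat.Agent.S17.H20
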