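import Fermat.Agent.S17.H20.Ext
import Fermat.Agent.Lib.RR.Approx
import Fermat.Prelude.Def_ModularCurve_ArithmeticGalois

/-!
# S17 / G-DIV (helper20): evaluation at places and functions defined over a subfield (for TRANS)

Setting: `L` an uncountable algebraically closed field of characteristic zero,
`F_L = laurentBaseChange L F₀`, `K₁ ⊆ L` a countable subfield.

* `evAt P hP : O_P →+* L` : evaluation at a place of degree one.
* `ratField F₀ K₁` : the subfield of `F_L` generated by the constants of `K₁` and by the image of
  `F₀` ("functions defined over `K₁`"); it is fixed pointwise by every `σ ∈ Aut(L/K₁)`.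
The transitivity statement itself (`stmtTRANS`) is in `TransStmt.lean`.
-/

set_option autoImplicit false
set_option linter.style.haveILetI false

noncomputable section

open AlgebraicCurve ModularCurve Cardinal
open scoped Pointwise

namespace Fermat.Agent.S17.H20

section Eval

variable {K F : Type*} [Field K] [Field F] [Algebra K F]

theorem bijective_algebraMap_residueField (P : Place K F) (hP : P.deg = 1) :
    Function.Bijective (algebraMap K P.ResidueField) := by
  refine ⟨(algebraMap K P.ResidueField).injective, fun x => ?_⟩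
  have h1 : (1 : P.ResidueField) ≠ 0 := one_ne_zero
  have hspan := (finrank_eq_one_iff_of_nonzero' (1 : P.ResidueField) h1).mp hP
  obtain ⟨c, hc⟩ := hspan x
  refine ⟨c, ?_⟩
  rw [← hc, Algebra.smul_def, mul_one]

/-- Evaluation at a place of degree one. -/
def evAt (P : Place K F) (hP : P.deg = 1) : P.toValuationSubring →+* K :=
  ((RingEquiv.ofBijective (algebraMap K P.ResidueField)
    (bijective_algebraMap_residueField P hP)).symm : P.ResidueField →+* K).comp
    (IsLocalRing.residue P.toValuationSubring)

theorem algebraMap_evAt (P : Place K F) (hP : P.deg = 1) (x : P.toValuationSubring) :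
    algebraMap K P.ResidueField (evAt P hP x) = IsLocalRing.residue P.toValuationSubring x := by
  unfold evAt
  simp only [RingHom.coe_comp, RingHom.coe_coe, Function.comp_apply]
  exact (RingEquiv.ofBijective (algebraMap K P.ResidueField)
    (bijective_algebraMap_residueField P hP)).apply_symm_apply _

theorem evAt_algebraMap (P : Place K F) (hP : P.deg = 1) (c : K) :
    evAt P hP (algebraMap K P.toValuationSubring c) = c := by
  apply (algebraMap K P.ResidueField).injective
  rw [algebraMap_evAt]
  rfl

theorem evAt_eq_zero_iff (P : Place K F) (hP : P.deg = 1) (x : P.toValuationSubring) :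
    evAt P hP x = 0 ↔ x ∈ IsLocalRing.maximalIdeal P.toValuationSubring := by
  rw [← IsLocalRing.residue_eq_zero_iff, ← algebraMap_evAt P hP x]
  constructor
  · intro h; rw [h, map_zero]
  · intro h
    exact (algebraMap K P.ResidueField).injective (by rw [h, map_zero])

theorem evAt_ne_zero_of_ord_eq_zero (P : Place K F) (hP : P.deg = 1)
    (x : P.toValuationSubring) (hx0 : (x : F) ≠ 0) (hx : P.ord (x : F) = 0) :
    evAt P hP x ≠ 0 := by
  rw [ne_eq, evAt_eq_zero_iff, Fermat.Agent.Lib.RR.mem_maximalIdeal_iff]
  rintro (h | h)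
  · exact hx0 h
  · omega

end Eval

end Fermat.Agent.S17.H20

namespace Fermat.Agent.S17.H20

section RatField

variable {L : Type*} [Field L] [Algebra ℚ L]
variable (F₀ : IntermediateField ℚ (LaurentSeries ℚ))

/-- Generators of the field of functions defined over `K₁`: constants of `K₁` and the image of
`F₀`. -/
def ratGen (K₁ : Subfield L) : Set (laurentBaseChange L F₀) :=
  (algebraMap L (laurentBaseChange L F₀)) '' (K₁ : Set L) ∪
    {x | ∃ y ∈ F₀, (x : LaurentSeries L) = coeffEmb L y}

/-- The subfield of `F_L` of functions defined over `K₁`. -/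
def ratField (K₁ : Subfield L) : Subfield (laurentBaseChange L F₀) :=
  Subfield.closure (ratGen F₀ K₁)

theorem algebraMap_mem_ratField (K₁ : Subfield L) {c : L} (hc : c ∈ K₁) :
    algebraMap L (laurentBaseChange L F₀) c ∈ ratField F₀ K₁ :=
  Subfield.subset_closure (Or.inl ⟨c, hc, rfl⟩)

theorem coeffEmb_mem_ratField (K₁ : Subfield L) {y : LaurentSeries ℚ} (hy : y ∈ F₀) :
    (⟨coeffEmb L y, coeffEmb_mem_laurentBaseChange L hy⟩ : laurentBaseChange L F₀)
      ∈ ratField F₀ K₁ :=
  Subfield.subset_closure (Or.inr ⟨y, hy, rfl⟩)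

/-- `ratField` is countable when `K₁` and `F₀` are. -/
theorem countable_ratField (K₁ : Subfield L) (hK₁ : (K₁ : Set L).Countable)
    (hF₀ : (F₀ : Set (LaurentSeries ℚ)).Countable) :
    #(ratField F₀ K₁) ≤ ℵ₀ := by
  have hgen : (ratGen F₀ K₁).Countable := by
    refine Set.Countable.union (hK₁.image _) ?_
    have hsub : {x : laurentBaseChange L F₀ | ∃ y ∈ F₀, (x : LaurentSeries L) = coeffEmb L y}
        ⊆ Set.range (fun y : F₀ => (⟨coeffEmb L (y : LaurentSeries ℚ),
            coeffEmb_mem_laurentBaseChange L y.2⟩ : laurentBaseChange L F₀)) := by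
      rintro x ⟨y, hy, hxy⟩
      exact ⟨⟨y, hy⟩, Subtype.ext hxy.symm⟩
    haveI : Countable F₀ := hF₀.to_subtype
    exact (Set.countable_range _).mono hsub
  refine (Subfield.cardinalMk_closure_le_max _).trans ?_
  exact max_le (Cardinal.mk_le_aleph0_iff.mpr hgen.to_subtype) le_rfl

/-- Automorphisms of `L` fixing `K₁` pointwise fix `ratField F₀ K₁` pointwise. -/
theorem smul_eq_of_mem_ratField (K₁ : Subfield L) (σ : L ≃ₐ[ℚ] L) (hσ : ∀ c ∈ K₁, σ c = c)
    {a : laurentBaseChange L F₀} (ha : a ∈ ratField F₀ K₁) :
    arithmeticGalois F₀ σ • a = a := by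
  induction ha using Subfield.closure_induction with
  | mem x hx =>
    rcases hx with ⟨c, hc, rfl⟩ | ⟨y, hy, hxy⟩
    · rw [SemilinearAut.smul_algebraMap]
      show algebraMap L _ (σ.toRingEquiv c) = _
      congr 1
      exact hσ c hc
    · apply Subtype.ext
      rw [coe_arithmeticGalois_smul, hxy]
      exact coeffMap_coeffEmb σ y
  | one => exact smul_one _
  | add x y _ _ hx hy => rw [smul_add, hx, hy]
  | neg x _ hx => rw [smul_neg, hx]
  | inv x _ hx => rw [smul_inv'', hx]
  | mul x y _ _ hx hy => rw [smul_mul', hx, hy]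

end RatField

end Fermat.Agent.S17.H20

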