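import Fermat.Agent.S17.GDiv.Defs
import Fermat.Agent.S17.H20.RatField
import Fermat.Agent.S17.H20.AlgCl

/-!
# S17 / G-DIV, piece TRANS (helper20): `Aut(L/K₀)` is transitive on the generic tuples

`stmtTRANS : StmtPLEXT N L → StmtZRAT N L → StmtTRANS N L` for an uncountable algebraically
closed field `L`.

Proof.  Induction on the number `m` of places already matched.  Let `σ` fix `K₀` with
`σ P_j = Q_j` for `j < m`, put `P' = σ P` (again generic over `K₀`) and let `K₁` be the algebraic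
closure in `L` of `K₀(t(Q_j) : j < m)`; it is countable and algebraically closed in `L`, and
`t(P'_m), t(Q_m) ∉ K₁`.  By ZRAT the places `P'_m`, `Q_m` are *generic over `K₁`*: their valuations
are trivial on the field `ratField` of functions defined over `K₁`, so evaluation at them gives
two embeddings of the countable field `ratField` in `L`.  By EXT (`Ext.lean`) some `τ ∈ Aut(L)`
intertwines them; it fixes `K₁`, and `τ P'_m = Q_m` by PLEXT.  For `j < m` the place `Q_j` is
rational over `K₁` (ZRAT, as `t(Q_j) ∈ K₁`), hence fixed by `τ` (PLEXT).  Replace `σ` by `τ σ`.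
-/

set_option autoImplicit false

noncomputable section

open AlgebraicCurve ModularCurve Cardinal
open scoped Pointwise

namespace Fermat.Agent.S17.H20

open Fermat.Agent.Lib.RR Fermat.Agent.S17.GDiv

section General

variable {K F : Type*} [Field K] [Field F] [Algebra K F]

/-- `f ∈ 𝔪_P` in terms of the evaluation at `P`. -/
theorem vanishes_iff_evAt (P : Place K F) (hP : P.deg = 1) (f : F) :
    (f = 0 ∨ 0 < P.ord f) ↔ ∃ h : f ∈ P.toValuationSubring, evAt P hP ⟨f, h⟩ = 0 := by
  constructor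
  · intro h
    have hmem : f ∈ P.toValuationSubring := by
      rcases h with rfl | h
      · exact zero_mem _
      · exact mem_of_ord_nonneg P h.le
    refine ⟨hmem, ?_⟩
    rw [evAt_eq_zero_iff, mem_maximalIdeal_iff]
    exact h
  · rintro ⟨hmem, h⟩
    rw [evAt_eq_zero_iff, mem_maximalIdeal_iff] at h
    exact h

/-- `f` has the value `c` at `P` in terms of the evaluation at `P`. -/
theorem value_iff_evAt (P : Place K F) (hP : P.deg = 1) (f : F) (c : K) :
    (f - algebraMap K F c = 0 ∨ 0 < P.ord (f - algebraMap K F c)) ↔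
      ∃ h : f ∈ P.toValuationSubring, evAt P hP ⟨f, h⟩ = c := by
  rw [vanishes_iff_evAt P hP]
  constructor
  · rintro ⟨hmem, h⟩
    have hf : f ∈ P.toValuationSubring := by
      have := add_mem hmem (P.algebraMap_mem' c)
      rwa [sub_add_cancel] at this
    refine ⟨hf, ?_⟩
    have e : (⟨f - algebraMap K F c, hmem⟩ : P.toValuationSubring)
        = ⟨f, hf⟩ - algebraMap K P.toValuationSubring c := Subtype.ext rfl
    rw [e, map_sub, evAt_algebraMap, sub_eq_zero] at h
    exact h
  · rintro ⟨hf, h⟩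
    have hmem : f - algebraMap K F c ∈ P.toValuationSubring :=
      sub_mem hf (P.algebraMap_mem' c)
    refine ⟨hmem, ?_⟩
    have e : (⟨f - algebraMap K F c, hmem⟩ : P.toValuationSubring)
        = ⟨f, hf⟩ - algebraMap K P.toValuationSubring c := Subtype.ext rfl
    rw [e, map_sub, evAt_algebraMap, h, sub_self]

/-- Values are transported by semilinear automorphisms. -/
theorem value_smul_iff (g : SemilinearAut K F) (v : Place K F) (f : F) (c : K) :
    (g • f - algebraMap K F (SemilinearAut.baseAut g c) = 0 ∨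
        0 < (g • v).ord (g • f - algebraMap K F (SemilinearAut.baseAut g c))) ↔
      (f - algebraMap K F c = 0 ∨ 0 < v.ord (f - algebraMap K F c)) := by
  have e : g • f - algebraMap K F (SemilinearAut.baseAut g c)
      = g • (f - algebraMap K F c) := by
    rw [smul_sub, SemilinearAut.smul_algebraMap]
  rw [e, SemilinearAut.ord_smul, smul_eq_zero_iff_eq]

end General

section Coeffs

variable {L : Type*} [Field L] [Algebra ℚ L]
variable (F₀ : IntermediateField ℚ (LaurentSeries ℚ))

/-- Functions defined over `K₁` have their `q`-expansion coefficients in `K₁`. -/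
theorem coeff_mem_of_mem_ratField (K₁ : Subfield L) {a : laurentBaseChange L F₀}
    (ha : a ∈ ratField F₀ K₁) (m : ℤ) : (a : LaurentSeries L).coeff m ∈ K₁ := by
  have hle : ratField F₀ K₁ ≤
      ((coeffMap (K₁.subtype : K₁ →+* L)).fieldRange).comap
        (algebraMap (laurentBaseChange L F₀) (LaurentSeries L)) := by
    unfold ratField
    rw [Subfield.closure_le]
    rintro x (⟨c, hc, rfl⟩ | ⟨y, hy, hxy⟩)
    · refine ⟨HahnSeries.single 0 (⟨c, hc⟩ : K₁), ?_⟩
      rw [coeffMap_single]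
      exact (algebraMap_laurentSeries_eq_single L c).symm
    · refine ⟨coeffMap ((algebraMap ℚ L).codRestrict K₁ fun q => by
        rw [eq_ratCast]; exact SubfieldClass.ratCast_mem K₁ q) y, ?_⟩
      rw [coeffMap_coeffMap]
      show _ = (x : LaurentSeries L)
      rw [hxy]
      rfl
  obtain ⟨y, hy⟩ := hle ha
  have e : (a : LaurentSeries L).coeff m = ((y.coeff m : K₁) : L) := by
    have h1 : (a : LaurentSeries L) = coeffMap (K₁.subtype : K₁ →+* L) y := hy.symm
    rw [h1]
    rfl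
  rw [e]
  exact (y.coeff m).2

end Coeffs

section Values

variable {N : ℕ} [NeZero N] {L : Type} [Field L] [Algebra ℚ L]

omit [NeZero N] in
theorem bcQ_mem_ratField (K₁ : Subfield L) (u : modularFunctionFieldFull N) :
    bcQ N L u ∈ ratField (modularFunctionFieldFull N) K₁ :=
  coeffEmb_mem_ratField (modularFunctionFieldFull N) K₁ u.2

omit [NeZero N] in
theorem coeffsIn_of_mem_ratField (K₁ : Subfield L) {a : FL N L}
    (ha : a ∈ ratField (modularFunctionFieldFull N) K₁) : CoeffsIn K₁ a :=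
  fun m => coeff_mem_of_mem_ratField (modularFunctionFieldFull N) K₁ ha m

omit [NeZero N] in
theorem smul_bcQ (τ : L ≃ₐ[ℚ] L) (u : modularFunctionFieldFull N) :
    arithmeticGalois (modularFunctionFieldFull N) τ • bcQ N L u = bcQ N L u := by
  apply Subtype.ext
  rw [coe_arithmeticGalois_smul]
  exact coeffMap_coeffEmb τ _

omit [NeZero N] in
/-- Values of functions with rational `q`-expansion are transported by `Aut(L)`. -/
theorem hasValue_smul_iff (τ : L ≃ₐ[ℚ] L) (P : Place L (FL N L))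
    (u : modularFunctionFieldFull N) (c : L) :
    HasValue (arithmeticGalois (modularFunctionFieldFull N) τ • P) (bcQ N L u) (τ c) ↔
      HasValue P (bcQ N L u) c := by
  have h := value_smul_iff (arithmeticGalois (modularFunctionFieldFull N) τ) P (bcQ N L u) c
  rw [smul_bcQ] at h
  exact h

omit [NeZero N] in
theorem hasValue_smul_iff' (τ : L ≃ₐ[ℚ] L) (P : Place L (FL N L))
    (u : modularFunctionFieldFull N) (c : L) :
    HasValue (arithmeticGalois (modularFunctionFieldFull N) τ • P) (bcQ N L u) c ↔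
      HasValue P (bcQ N L u) (τ.symm c) := by
  rw [← hasValue_smul_iff τ P u (τ.symm c), AlgEquiv.apply_symm_apply]

variable [FF1 L (FL N L)]

omit [NeZero N] in
theorem hasValue_iff_evAt (P : Place L (FL N L)) (f : FL N L) (c : L) :
    HasValue P f c ↔ ∃ h : f ∈ P.toValuationSubring, evAt P (deg_eq_one P) ⟨f, h⟩ = c :=
  value_iff_evAt P (deg_eq_one P) f c

omit [NeZero N] in
theorem hasValue_unique {P : Place L (FL N L)} {f : FL N L} {c c' : L}
    (h : HasValue P f c) (h' : HasValue P f c') : c = c' := by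
  obtain ⟨h1, e1⟩ := (hasValue_iff_evAt P f c).mp h
  obtain ⟨h2, e2⟩ := (hasValue_iff_evAt P f c').mp h'
  rw [← e1, ← e2]

omit [FF1 L (FL N L)] in
theorem hasValue_tval {P : Place L (FL N L)} (hfin : ∃ c : L, HasValue P (tL N L) c) :
    HasValue P (tL N L) (tval P) := by
  unfold tval
  rw [dif_pos hfin]
  exact hfin.choose_spec

theorem tval_smul (τ : L ≃ₐ[ℚ] L) (P : Place L (FL N L))
    (hfin : ∃ c : L, HasValue P (tL N L) c) :
    (∃ c : L, HasValue (arithmeticGalois (modularFunctionFieldFull N) τ • P) (tL N L) c) ∧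
      tval (arithmeticGalois (modularFunctionFieldFull N) τ • P) = τ (tval P) := by
  have h1 : HasValue (arithmeticGalois (modularFunctionFieldFull N) τ • P) (tL N L)
      (τ (tval P)) :=
    (hasValue_smul_iff τ P (jQ N) (tval P)).mpr (hasValue_tval hfin)
  exact ⟨⟨_, h1⟩, hasValue_unique (hasValue_tval ⟨_, h1⟩) h1⟩

end Values

section Generic

variable {L : Type*} [Field L] [Algebra ℚ L]
variable (F₀ : IntermediateField ℚ (LaurentSeries ℚ))

/-- A place is *generic over `K₁`* if its valuation is trivial on the functions defined over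
`K₁`. -/
def IsGenericOver (K₁ : Subfield L) (P : Place L (laurentBaseChange L F₀)) : Prop :=
  ∀ a ∈ ratField F₀ K₁, a ≠ 0 → P.ord a = 0

variable {F₀}

theorem IsGenericOver.mem {K₁ : Subfield L} {P : Place L (laurentBaseChange L F₀)}
    (hP : IsGenericOver F₀ K₁ P) {a : laurentBaseChange L F₀} (ha : a ∈ ratField F₀ K₁) :
    a ∈ P.toValuationSubring := by
  rcases eq_or_ne a 0 with rfl | h0
  · exact zero_mem _
  · exact mem_of_ord_nonneg P (hP a ha h0).ge

/-- The evaluation of the functions defined over `K₁` at a generic place. -/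
def evRat {K₁ : Subfield L} {P : Place L (laurentBaseChange L F₀)} (hdeg : P.deg = 1)
    (hP : IsGenericOver F₀ K₁ P) : ratField F₀ K₁ →+* L :=
  (evAt P hdeg).comp
    ((ratField F₀ K₁).subtype.codRestrict P.toValuationSubring.toSubring fun a => hP.mem a.2)

theorem evRat_apply {K₁ : Subfield L} {P : Place L (laurentBaseChange L F₀)} (hdeg : P.deg = 1)
    (hP : IsGenericOver F₀ K₁ P) (a : ratField F₀ K₁) :
    evRat hdeg hP a = evAt P hdeg ⟨(a : laurentBaseChange L F₀), hP.mem a.2⟩ := rfl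

/-- An automorphism of `L` intertwining the evaluations at two generic places fixes `K₁`. -/
theorem fixes_of_evRat {K₁ : Subfield L} {P Q : Place L (laurentBaseChange L F₀)}
    (hPdeg : P.deg = 1) (hQdeg : Q.deg = 1)
    (hP : IsGenericOver F₀ K₁ P) (hQ : IsGenericOver F₀ K₁ Q) (τ : L ≃ₐ[ℚ] L)
    (hτ : ∀ a : ratField F₀ K₁, τ (evRat hPdeg hP a) = evRat hQdeg hQ a)
    (c : L) (hc : c ∈ K₁) : τ c = c := by
  have h := hτ ⟨algebraMap L _ c, algebraMap_mem_ratField F₀ K₁ hc⟩
  rw [evRat_apply, evRat_apply] at h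
  have e1 : evAt P hPdeg ⟨algebraMap L (laurentBaseChange L F₀) c,
      hP.mem (algebraMap_mem_ratField F₀ K₁ hc)⟩ = c := evAt_algebraMap P hPdeg c
  have e2 : evAt Q hQdeg ⟨algebraMap L (laurentBaseChange L F₀) c,
      hQ.mem (algebraMap_mem_ratField F₀ K₁ hc)⟩ = c := evAt_algebraMap Q hQdeg c
  rw [e1, e2] at h
  exact h

/-- **EXT** applied to the evaluations at two generic places. -/
theorem exists_aut_evRat [IsAlgClosed L] [Uncountable L]
    (K₁ : Subfield L) (hK₁ : (K₁ : Set L).Countable)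
    (hF₀ : (F₀ : Set (LaurentSeries ℚ)).Countable)
    (P Q : Place L (laurentBaseChange L F₀)) (hPdeg : P.deg = 1) (hQdeg : Q.deg = 1)
    (hP : IsGenericOver F₀ K₁ P) (hQ : IsGenericOver F₀ K₁ Q) :
    ∃ τ : L ≃ₐ[ℚ] L, (∀ c ∈ K₁, τ c = c) ∧
      ∀ a : ratField F₀ K₁, τ (evRat hPdeg hP a) = evRat hQdeg hQ a := by
  obtain ⟨τ₀, hτ₀⟩ := exists_ringEquiv_comp_eq (countable_ratField F₀ K₁ hK₁ hF₀)
    Cardinal.aleph0_lt_mk (evRat hPdeg hP) (evRat hQdeg hQ)
  obtain ⟨τ, hτ⟩ : ∃ τ : L ≃ₐ[ℚ] L, ∀ x : L, τ x = τ₀ x :=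
    ⟨AlgEquiv.ofRingEquiv (f := τ₀) (fun r => by
      rw [eq_ratCast]; exact map_ratCast τ₀ r), fun _ => rfl⟩
  have hτ' : ∀ a : ratField F₀ K₁, τ (evRat hPdeg hP a) = evRat hQdeg hQ a := fun a => by
    rw [hτ]; exact hτ₀ a
  exact ⟨τ, fixes_of_evRat hPdeg hQdeg hP hQ τ hτ', hτ'⟩

end Generic

section Pieces

variable {N : ℕ} [NeZero N] {L : Type} [Field L] [Algebra ℚ L]

omit [NeZero N] in
theorem countable_modularFunctionFieldFull :
    ((modularFunctionFieldFull N : IntermediateField ℚ (LaurentSeries ℚ)) :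
      Set (LaurentSeries ℚ)).Countable := by
  have hs : (divisorExpansions N).Countable := by
    have hsub : divisorExpansions N ⊆
        Set.range (fun d : {d : ℕ // NeZero d} => @qExpand ℚ _ d.1 d.2 jq) := by
      rintro x ⟨d, hd, -, rfl⟩
      exact ⟨⟨d, hd⟩, rfl⟩
    exact (Set.countable_range _).mono hsub
  rw [← Set.countable_coe_iff, ← Cardinal.mk_le_aleph0_iff]
  refine (IntermediateField.cardinalMk_adjoin_le ℚ (divisorExpansions N)).trans ?_
  have a1 : #ℚ ≤ ℵ₀ := Cardinal.mk_le_aleph0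
  have a2 : #(divisorExpansions N) ≤ ℵ₀ := Cardinal.mk_le_aleph0_iff.mpr hs.to_subtype
  exact sup_le (sup_le a1 a2) le_rfl

/-- `t - c ≠ 0`. -/
theorem tL_sub_ne_zero (c : L) : tL N L - algebraMap L (FL N L) c ≠ 0 := by
  intro h
  have h1 : ((tL N L - algebraMap L (FL N L) c : FL N L) : LaurentSeries L).coeff (-1) = 0 := by
    rw [h]; rfl
  have h2 : ((tL N L - algebraMap L (FL N L) c : FL N L) : LaurentSeries L)
      = coeffEmb L jq - algebraMap L (LaurentSeries L) c := rfl
  rw [h2, algebraMap_laurentSeries_eq_single, HahnSeries.coeff_sub, coeffEmb_coeff,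
    coeff_jq_neg_one, map_one, HahnSeries.coeff_single_of_ne (by decide), sub_zero] at h1
  exact one_ne_zero h1

variable [FF1 L (FL N L)]

omit [FF1 L (FL N L)] in
/-- (T2) A place at which `t` is finite with value outside `K₁` is generic over `K₁`. -/
theorem isGenericOver_of_tval_notMem (hZRAT : StmtZRAT N L) (K₁ : Subfield L)
    (hK₁ : AlgClosedIn K₁) (P : Place L (FL N L)) (hfin : ∃ c : L, HasValue P (tL N L) c)
    (hnot : tval P ∉ K₁) : IsGenericOver (modularFunctionFieldFull N) K₁ P := by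
  intro a ha _
  by_contra hord
  exact hnot (hZRAT K₁ hK₁ a (coeffsIn_of_mem_ratField K₁ ha) P hord (jQ N) (tval P)
    (hasValue_tval hfin))

omit [FF1 L (FL N L)] in
/-- (T6) A place at which `t` is finite with value in `K₁` is rational over `K₁`. -/
theorem isRationalOver_of_tval_mem (hZRAT : StmtZRAT N L) (K₁ : Subfield L)
    (hK₁ : AlgClosedIn K₁) (P : Place L (FL N L)) (hfin : ∃ c : L, HasValue P (tL N L) c)
    (hmem : tval P ∈ K₁) : IsRationalOver K₁ P := by
  have hv : HasValue P (tL N L) (tval P) := hasValue_tval hfin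
  have hrat : tL N L - algebraMap L (FL N L) (tval P) ∈ ratField (modularFunctionFieldFull N) K₁ :=
    sub_mem (bcQ_mem_ratField K₁ (jQ N)) (algebraMap_mem_ratField _ K₁ hmem)
  refine hZRAT K₁ hK₁ _ (coeffsIn_of_mem_ratField K₁ hrat) P ?_
  rcases hv with h | h
  · exact absurd h (tL_sub_ne_zero (tval P))
  · exact h.ne'

omit [NeZero N] [FF1 L (FL N L)] in
/-- (T5) A place rational over `K₁` is fixed by `Aut(L/K₁)`. -/
theorem smul_eq_self_of_isRationalOver (hPLEXT : StmtPLEXT N L) (K₁ : Subfield L)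
    (τ : L ≃ₐ[ℚ] L) (hfix : ∀ c ∈ K₁, τ c = c) (P : Place L (FL N L))
    (hP : IsRationalOver K₁ P) :
    arithmeticGalois (modularFunctionFieldFull N) τ • P = P := by
  apply hPLEXT
  intro u c h
  have h' : HasValue P (bcQ N L u) (τ.symm c) := (hasValue_smul_iff' τ P u c).mp h
  have hc : τ.symm c ∈ K₁ := hP u _ h'
  have e : τ.symm c = c := by
    have := hfix _ hc
    rw [AlgEquiv.apply_symm_apply] at this
    exact this.symm
  rwa [e] at h'

omit [NeZero N] in
/-- (T4) `Aut(L/K₁)` is transitive on the places generic over `K₁`. -/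
theorem exists_aut_smul_eq_of_isGenericOver [IsAlgClosed L] [Uncountable L]
    (hPLEXT : StmtPLEXT N L) (K₁ : Subfield L) (hK₁ : (K₁ : Set L).Countable)
    (P Q : Place L (FL N L))
    (hP : IsGenericOver (modularFunctionFieldFull N) K₁ P)
    (hQ : IsGenericOver (modularFunctionFieldFull N) K₁ Q) :
    ∃ τ : L ≃ₐ[ℚ] L, (∀ c ∈ K₁, τ c = c) ∧
      arithmeticGalois (modularFunctionFieldFull N) τ • P = Q := by
  obtain ⟨τ, hfix, hτ⟩ := exists_aut_evRat K₁ hK₁ countable_modularFunctionFieldFull P Q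
    (deg_eq_one P) (deg_eq_one Q) hP hQ
  refine ⟨τ, hfix, ?_⟩
  apply hPLEXT
  intro u c h
  have h' : HasValue P (bcQ N L u) (τ.symm c) := (hasValue_smul_iff' τ P u c).mp h
  obtain ⟨hmem, hev⟩ := (hasValue_iff_evAt P _ _).mp h'
  have h2 := hτ ⟨bcQ N L u, bcQ_mem_ratField K₁ u⟩
  rw [evRat_apply, evRat_apply] at h2
  rw [(hasValue_iff_evAt Q _ _)]
  refine ⟨hQ.mem (bcQ_mem_ratField K₁ u), ?_⟩
  rw [← h2]
  have e3 : evAt P (deg_eq_one P) ⟨bcQ N L u, hP.mem (bcQ_mem_ratField K₁ u)⟩ = τ.symm c := hev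
  rw [e3, AlgEquiv.apply_symm_apply]

end Pieces

section Main

variable {N : ℕ} [NeZero N] {L : Type} [Field L] [Algebra ℚ L] [FF1 L (FL N L)]

/-- The image of a generic tuple under `Aut(L/K₀)` is generic. -/
theorem isGenericTuple_smul (K₀ : Subfield L) (τ : L ≃ₐ[ℚ] L) (hfix : ∀ a ∈ K₀, τ a = a)
    {m : ℕ} (P : Fin m → Place L (FL N L)) (hP : IsGenericTuple K₀ P) :
    IsGenericTuple K₀ (fun i => arithmeticGalois (modularFunctionFieldFull N) τ • P i) := by
  refine ⟨fun i => (tval_smul τ (P i) (hP.1 i)).1, ?_⟩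
  have e : (fun i => tval (arithmeticGalois (modularFunctionFieldFull N) τ • P i))
      = fun i => τ (tval (P i)) :=
    funext fun i => (tval_smul τ (P i) (hP.1 i)).2
  rw [e]
  let τ' : L →ₐ[K₀] L := { (τ : L →+* L) with commutes' := fun a => hfix a a.2 }
  exact hP.2.map' (f := τ') τ.injective

/-- The inductive step of TRANS. -/
theorem trans_step [IsAlgClosed L] [Uncountable L]
    (hPLEXT : StmtPLEXT N L) (hZRAT : StmtZRAT N L)
    (K₀ : Subfield L) (hK₀ : (K₀ : Set L).Countable)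
    {g : ℕ} (P Q : Fin g → Place L (FL N L))
    (hP : IsGenericTuple K₀ P) (hQ : IsGenericTuple K₀ Q)
    (m : ℕ) (hm : m < g) (hPQ : ∀ i : Fin g, (i : ℕ) < m → P i = Q i) :
    ∃ τ : L ≃ₐ[ℚ] L, (∀ a ∈ K₀, τ a = a) ∧
      ∀ i : Fin g, (i : ℕ) < m + 1 →
        arithmeticGalois (modularFunctionFieldFull N) τ • P i = Q i := by
  classical
  set s : Set (Fin g) := {j | (j : ℕ) < m} with hs
  set K₁ : Subfield L := algClosureAdjoin K₀ ((fun i => tval (Q i)) '' s) with hK₁def
  have himg : (fun i => tval (P i)) '' s = (fun i => tval (Q i)) '' s :=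
    Set.image_congr fun j hj => by
      show tval (P j) = tval (Q j)
      rw [hPQ j hj]
  have hK₁closed : AlgClosedIn K₁ := algClosedIn_algClosureAdjoin K₀ _
  have hK₁c : (K₁ : Set L).Countable :=
    countable_algClosureAdjoin K₀ _ hK₀ ((Set.to_countable s).image _)
  have hK₀K₁ : K₀ ≤ K₁ := le_algClosureAdjoin K₀ _
  have hmem : ∀ j : Fin g, (j : ℕ) < m → tval (Q j) ∈ K₁ := fun j hj =>
    subset_algClosureAdjoin K₀ _ ⟨j, hj, rfl⟩
  have hms : (⟨m, hm⟩ : Fin g) ∉ s := fun h => lt_irrefl m h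
  have hQm : tval (Q ⟨m, hm⟩) ∉ K₁ :=
    notMem_algClosureAdjoin K₀ (fun i => tval (Q i)) hQ.2 s ⟨m, hm⟩ hms
  have hPm : tval (P ⟨m, hm⟩) ∉ K₁ := by
    rw [hK₁def, ← himg]
    exact notMem_algClosureAdjoin K₀ (fun i => tval (P i)) hP.2 s ⟨m, hm⟩ hms
  obtain ⟨τ, hτfix, hτ⟩ := exists_aut_smul_eq_of_isGenericOver hPLEXT K₁ hK₁c
    (P ⟨m, hm⟩) (Q ⟨m, hm⟩)
    (isGenericOver_of_tval_notMem hZRAT K₁ hK₁closed _ (hP.1 _) hPm)
    (isGenericOver_of_tval_notMem hZRAT K₁ hK₁closed _ (hQ.1 _) hQm)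
  refine ⟨τ, fun a ha => hτfix a (hK₀K₁ ha), fun i hi => ?_⟩
  rcases Nat.lt_succ_iff_lt_or_eq.mp hi with h | h
  · rw [hPQ i h]
    exact smul_eq_self_of_isRationalOver hPLEXT K₁ τ hτfix (Q i)
      (isRationalOver_of_tval_mem hZRAT K₁ hK₁closed (Q i) (hQ.1 i) (hmem i h))
  · have hi' : i = ⟨m, hm⟩ := Fin.ext h
    rw [hi']
    exact hτ

/-- **TRANS.**  `Aut(L/K₀)` acts transitively on the generic tuples. -/
theorem stmtTRANS [IsAlgClosed L] [Uncountable L]
    (hPLEXT : StmtPLEXT N L) (hZRAT : StmtZRAT N L) : StmtTRANS N L := by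
  intro K₀ _ hK₀c P Q hP hQ
  have claim : ∀ m : ℕ, m ≤ gL N L → ∃ σ : L ≃ₐ[ℚ] L, (∀ a ∈ K₀, σ a = a) ∧
      ∀ i : Fin (gL N L), (i : ℕ) < m →
        arithmeticGalois (modularFunctionFieldFull N) σ • P i = Q i := by
    intro m
    induction m with
    | zero =>
      intro _
      exact ⟨1, fun _ _ => rfl, fun i hi => absurd hi (Nat.not_lt_zero _)⟩
    | succ m ih =>
      intro hm
      obtain ⟨σ, hσ, hσP⟩ := ih (Nat.le_of_succ_le hm)
      obtain ⟨τ, hτ, hτP⟩ := trans_step hPLEXT hZRAT K₀ hK₀c _ Q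
        (isGenericTuple_smul K₀ σ hσ P hP) hQ m hm hσP
      refine ⟨τ * σ, fun a ha => ?_, fun i hi => ?_⟩
      · show τ (σ a) = a
        rw [hσ a ha, hτ a ha]
      · rw [map_mul, mul_smul]
        exact hτP i hi
  obtain ⟨σ, hσ, hσP⟩ := claim (gL N L) le_rfl
  exact ⟨σ, hσ, fun i => hσP i i.2⟩

end Main

end Fermat.Agent.S17.H20
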