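import Fermat.Agent.S17.GDiv.Assembly
import Fermat.Agent.S17.H20.TransStmt
import Fermat.Agent.S17.H200.Plext
import Fermat.Agent.S17.H711.Der
import Fermat.Agent.S17.H917.CoreRig
import Fermat.Agent.S17.H871.ZRat
import Fermat.Agent.S17.H830.NSMain
import Fermat.Agent.S17.H137.Gen
import Fermat.Agent.S17.H560.GenStab
import Fermat.Agent.S17.H247.DerEx
import Fermat.Agent.S17.H247.DPres

/-!
# S17 / G-DIV, piece INST (helper20): `J₀(N)(ℚ̄)` is divisible

`divisible : ∀ n ≠ 0, ∀ x : JZero N, ∃ y, n • y = x`, by `GDiv.divisible_of` at `L = ℂ` with the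
pieces on main:
PLEXT (H200), DER (H711), DEREX + DPRES (H247), CORE + RIG (H917), ZRAT + CUSPRAT + BC (H871),
NS (H830), GEN (H137), GENSTAB (H560), TRANS (H20).
-/

set_option autoImplicit false

noncomputable section

open AlgebraicCurve ModularCurve

namespace Fermat.Agent.S17.H20

open Fermat.Agent.Lib.RR Fermat.Agent.S17.GDiv

section KL

variable (L : Type) [Field L] [Algebra Qb L]

/-- The image of `ℚ̄` in `L` is countable. -/
theorem countable_kL : ((kL L : Subfield L) : Set L).Countable := by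
  have hQb : Countable Qb := by
    have halg : Algebra.IsAlgebraic ℚ Qb := Fermat.Agent.S17.H871.isAlgebraic_Qb
    rw [← Cardinal.mk_le_aleph0_iff]
    refine (Algebra.IsAlgebraic.cardinalMk_le_max ℚ Qb).trans ?_
    exact max_le Cardinal.mk_le_aleph0 le_rfl
  exact Set.countable_range _

/-- The image of `ℚ̄` in `L` is algebraically closed in `L`. -/
theorem algClosedIn_kL : AlgClosedIn (kL L) := by
  intro x hx
  have halg : IsAlgebraic Qb x :=
    IsAlgebraic.of_ringHom_of_comp_eq (R := Qb) (S := kL L) (A := L) (B := L)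
      (f := (algebraMap Qb L).rangeRestrictField) (g := RingHom.id L) (a := x) hx
      (algebraMap Qb L).rangeRestrictField_bijective.2 Function.injective_id rfl
  have hdeg : (minpoly Qb x).degree = 1 :=
    IsAlgClosed.degree_eq_one_of_irreducible Qb (minpoly.irreducible halg.isIntegral)
  obtain ⟨a, ha⟩ := minpoly.mem_range_of_degree_eq_one Qb x hdeg
  exact ⟨a, ha⟩

end KL

/-- **G-DIV**: `J₀(N)(ℚ̄)` is divisible. -/
theorem divisible (N : ℕ) [NeZero N] (n : ℕ) (hn : n ≠ 0) (x : JZero N) :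
    ∃ y : JZero N, n • y = x := by
  let _ : Algebra Qb ℂ := Fermat.Agent.S17.H871.algebraQb ℂ
  have _ : FF1 ℂ (FL N ℂ) := Fermat.Agent.S17.H871.ff1_FL N ℂ
  have _ : Uncountable ℂ := by
    rw [← Cardinal.aleph0_lt_mk_iff, Cardinal.mk_complex]
    exact Cardinal.aleph0_lt_continuum
  have hPLEXT : StmtPLEXT N ℂ := Fermat.Agent.S17.H200.stmtPLEXT
  have hZRAT : StmtZRAT N ℂ := Fermat.Agent.S17.H871.stmtZRAT N ℂ
  have hCUSP : StmtCUSPRAT N ℂ := Fermat.Agent.S17.H871.stmtCUSPRAT N ℂ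
  have hDER : StmtDER N ℂ := Fermat.Agent.S17.H711.stmtDER N ℂ
  have hCORE : StmtCORE N ℂ :=
    Fermat.Agent.S17.H917.stmtCORE hDER (Fermat.Agent.S17.H247.stmtDEREX ℂ)
      (Fermat.Agent.S17.H247.stmtDPRES N ℂ)
  have hRIG : StmtRIG N ℂ := Fermat.Agent.S17.H917.stmtRIG hCORE hZRAT hCUSP
  exact divisible_of N ℂ (countable_kL ℂ) (algClosedIn_kL ℂ)
    (Fermat.Agent.S17.H871.stmtBC N ℂ) hRIG (Fermat.Agent.S17.H830.stmtNS hPLEXT)
    (Fermat.Agent.S17.H137.stmtGEN N ℂ) (Fermat.Agent.S17.H560.stmtGENSTAB hRIG hCUSP hZRAT)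
    (stmtTRANS hPLEXT hZRAT) n hn x

end Fermat.Agent.S17.H20
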