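import Mathlib

/-!
# S17 / G-DIV (helper20): extension of field isomorphisms to automorphisms (piece EXT)

Mathlib-only field theory used by the "TRANS" ending of the generic-point proof of divisibility
(`coord/S17-GDIV-helper20.md` on origin/helper20).

* `exists_ringEquiv_of_transcendenceBasis` : two algebraically closed `R`-algebras with
  equipotent transcendence bases over `R` are isomorphic **as `R`-algebras**
  (Mathlib's `IsAlgClosed.equivOfTranscendenceBasis` only records a ring isomorphism).
* `exists_ringEquiv_comp_eq` : if `Ω` is an uncountable algebraically closed field and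
  `f g : A →+* Ω` are two embeddings of a countable field, there is an automorphism `τ` of `Ω`
  with `τ ∘ f = g`.
* `exists_ringEquiv_comp_eq_fixing` : the same, and `τ` fixes pointwise a given set on which
  it is forced to be the identity (the image under `f` of a set on which `f = g`).
-/

set_option autoImplicit false
set_option linter.style.haveILetI false

open Cardinal

namespace Fermat.Agent.S17.H20

universe u v w w'

section Key

variable {R : Type u} {K : Type v} {L : Type w'} [Field R] [Field K] [Field L]

/-- Two algebraically closed fields with equipotent transcendence bases over `R` are isomorphic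
over `R`. -/
theorem exists_ringEquiv_of_transcendenceBasis [Algebra R K] [Algebra R L]
    [IsAlgClosed K] [IsAlgClosed L] {ι κ : Type*} (v : ι → K) (w : κ → L) (e : ι ≃ κ)
    (hv : IsTranscendenceBasis R v) (hw : IsTranscendenceBasis R w) :
    ∃ τ : K ≃+* L, ∀ r : R, τ (algebraMap R K r) = algebraMap R L r := by
  letI := IsAlgClosed.isAlgClosure_of_transcendence_basis v hv
  letI := IsAlgClosed.isAlgClosure_of_transcendence_basis w hw
  let e₁ : MvPolynomial ι R ≃ₐ[R] MvPolynomial κ R :=
    AlgEquiv.ofAlgHom (MvPolynomial.rename e) (MvPolynomial.rename e.symm)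
      (by ext; simp) (by ext; simp)
  let e₀ : Algebra.adjoin R (Set.range v) ≃ₐ[R] Algebra.adjoin R (Set.range w) :=
    (hv.1.aevalEquiv.symm.trans e₁).trans hw.1.aevalEquiv
  refine ⟨IsAlgClosure.equivOfEquiv K L e₀.toRingEquiv, fun r => ?_⟩
  have h1 : algebraMap R K r
      = algebraMap (Algebra.adjoin R (Set.range v)) K
          (algebraMap R (Algebra.adjoin R (Set.range v)) r) := rfl
  rw [h1, IsAlgClosure.equivOfEquiv_algebraMap]
  have h2 : e₀.toRingEquiv (algebraMap R (Algebra.adjoin R (Set.range v)) r)
      = algebraMap R (Algebra.adjoin R (Set.range w)) r := e₀.commutes r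
  rw [h2]
  rfl

end Key

section Uncountable

variable {A : Type u} {Ω : Type v} [Field A] [Field Ω] [IsAlgClosed Ω]

/-- In an uncountable algebraically closed field, any transcendence basis over a countable
field (for any algebra structure) has the cardinality of the field. -/
theorem mk_transcendenceBasis_eq (hA : #A ≤ ℵ₀) (hΩ : ℵ₀ < #Ω) (f : A →+* Ω)
    (s : Set Ω) (hs : @IsTranscendenceBasis s A Ω _ _ f.toAlgebra (fun x : s => (x : Ω))) :
    #s = #Ω := by
  letI := f.toAlgebra
  have h := IsAlgClosed.cardinal_eq_cardinal_transcendence_basis_of_aleph0_lt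
    (R := A) (K := Ω) (fun x : s => (x : Ω)) hs hA hΩ
  exact (Cardinal.lift_injective h).symm

/-- **EXT.** Two embeddings of a countable field into an uncountable algebraically closed field
differ by an automorphism. -/
theorem exists_ringEquiv_comp_eq (hA : #A ≤ ℵ₀) (hΩ : ℵ₀ < #Ω) (f g : A →+* Ω) :
    ∃ τ : Ω ≃+* Ω, ∀ a : A, τ (f a) = g a := by
  obtain ⟨s, hs⟩ := @exists_isTranscendenceBasis A Ω _ _ f.toAlgebra
    (by
      letI := f.toAlgebra
      exact (faithfulSMul_iff_algebraMap_injective A Ω).mpr f.injective)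
  obtain ⟨t, ht⟩ := @exists_isTranscendenceBasis A Ω _ _ g.toAlgebra
    (by
      letI := g.toAlgebra
      exact (faithfulSMul_iff_algebraMap_injective A Ω).mpr g.injective)
  have hst : #s = #t := by
    rw [mk_transcendenceBasis_eq hA hΩ f s hs, mk_transcendenceBasis_eq hA hΩ g t ht]
  obtain ⟨e⟩ := Cardinal.eq.mp hst
  obtain ⟨τ, hτ⟩ := @exists_ringEquiv_of_transcendenceBasis A Ω Ω _ _ _ f.toAlgebra g.toAlgebra
    _ _ s t (fun x : s => (x : Ω)) (fun x : t => (x : Ω)) e hs ht
  exact ⟨τ, hτ⟩

/-- Variant of **EXT** with the fixed field made explicit: if `f` and `g` agree with a fixed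
embedding `i : K₁ →+* Ω` along `j : K₁ →+* A`, then `τ` fixes `i K₁` pointwise. -/
theorem exists_ringEquiv_comp_eq_fixing {K₁ : Type w} [Field K₁] (hA : #A ≤ ℵ₀) (hΩ : ℵ₀ < #Ω)
    (f g : A →+* Ω) (j : K₁ →+* A) (i : K₁ →+* Ω)
    (hf : ∀ c, f (j c) = i c) (hg : ∀ c, g (j c) = i c) :
    ∃ τ : Ω ≃+* Ω, (∀ a : A, τ (f a) = g a) ∧ ∀ c : K₁, τ (i c) = i c := by
  obtain ⟨τ, hτ⟩ := exists_ringEquiv_comp_eq hA hΩ f g
  refine ⟨τ, hτ, fun c => ?_⟩
  rw [← hf c, hτ, hg, hf]

end Uncountable

end Fermat.Agent.S17.H20
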